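/-
GATE-H / node L (iii) SHIFT CLASSES (helper87).

Frame of `GH/Vocab.lean`.  For ANY section `s` of the place reduction `rOf H`:

* `liftDiv s E := mapDomain s E` lifts a special divisor `E` with `r_* (liftDiv s E) = E` and the
  same degree;
* `kerRedSubgroup H` : `KerRed H` is an additive subgroup of `Pic0 K F`;
* `exists_shift` : every class `ξ` of `Pic0 K F` differs from a lifted class by an element of
  `KerRed H`;
* `exists_shiftSet` : a FINITE set of lifted classes covers any finite `M ⊆ Pic0 K F` modulo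
  `KerRed H`.

Feeding an inertia-fixed section `s` (node GAL) makes all shifts inertia-fixed.
-/
import Mathlib
import Fermat.Agent.GH.Vocab

set_option autoImplicit false

noncomputable section

open AlgebraicCurve

namespace Fermat.Agent.GH.L3

open Fermat.Agent.RRh45 Fermat.Agent.GJ.S37MinDiv Fermat.Agent.GJ.J1 Fermat.Agent.GJ.S37LSpace
  Fermat.Agent.GJ.S37ROfSurj Fermat.Agent.GH

variable {K F k Ft : Type*} [Field K] [Field F] [Algebra K F] [Field k] [Field Ft] [Algebra k Ft]

/-! ### Degrees under push-forward along a map of places -/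

theorem degree_mapDomain (hK : ∀ P : Place K F, P.deg = 1) (hk : ∀ Q : Place k Ft, Q.deg = 1)
    (r : Place K F → Place k Ft) (D : Divisor K F) :
    Divisor.degree (Finsupp.mapDomain r D) = Divisor.degree D := by
  induction D using Finsupp.induction with
  | zero => simp
  | single_add P n D _ _ ih =>
    rw [Finsupp.mapDomain_add, map_add, map_add, ih, Finsupp.mapDomain_single,
      Divisor.degree_single, Divisor.degree_single, hK, hk]

theorem degree_mapDomain' (hK : ∀ P : Place K F, P.deg = 1) (hk : ∀ Q : Place k Ft, Q.deg = 1)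
    (s : Place k Ft → Place K F) (E : Divisor k Ft) :
    Divisor.degree (Finsupp.mapDomain s E) = Divisor.degree E := by
  induction E using Finsupp.induction with
  | zero => simp
  | single_add Q n E _ _ ih =>
    rw [Finsupp.mapDomain_add, map_add, map_add, ih, Finsupp.mapDomain_single,
      Divisor.degree_single, Divisor.degree_single, hK, hk]

/-- the zero divisor is principal. -/
theorem isPrincipal_zero : Divisor.IsPrincipal (0 : Divisor K F) :=
  ⟨1, one_ne_zero, fun v => by rw [Place.ord_one]; rfl⟩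

variable {R : RedData K F k Ft} {g c : ℤ}
variable [FiniteResidues K F] [HasPrincipalDivisors K F] [Nonempty (Place K F)]
variable [FiniteResidues k Ft] [HasPrincipalDivisors k Ft] [Nonempty (Place k Ft)]
variable [Infinite k]

/-! ### Lifting divisors along a section -/

/-- the lift of a special divisor along a map `s` of places. -/
def liftDiv (s : Place k Ft → Place K F) (E : Divisor k Ft) : Divisor K F := Finsupp.mapDomain s E

omit [FiniteResidues K F] [HasPrincipalDivisors K F] [Nonempty (Place K F)]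
  [FiniteResidues k Ft] [HasPrincipalDivisors k Ft] [Nonempty (Place k Ft)] [Infinite k] in
theorem liftDiv_add (s : Place k Ft → Place K F) (E E' : Divisor k Ft) :
    liftDiv s (E + E') = liftDiv s E + liftDiv s E' := Finsupp.mapDomain_add

theorem mapDomain_rOf_liftDiv (H : LSpaceHyp R g c) {s : Place k Ft → Place K F}
    (hs : ∀ Q, rOf H (s Q) = Q) (E : Divisor k Ft) :
    Finsupp.mapDomain (rOf H) (liftDiv s E) = E := by
  rw [liftDiv, ← Finsupp.mapDomain_comp]
  have : rOf H ∘ s = id := funext hs
  rw [this, Finsupp.mapDomain_id]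

omit [FiniteResidues K F] [HasPrincipalDivisors K F] [Nonempty (Place K F)]
  [FiniteResidues k Ft] [HasPrincipalDivisors k Ft] [Nonempty (Place k Ft)] [Infinite k] in
theorem degree_liftDiv (H : LSpaceHyp R g c) (s : Place k Ft → Place K F) (E : Divisor k Ft) :
    Divisor.degree (liftDiv s E) = Divisor.degree E :=
  degree_mapDomain' H.degF H.degFt s E

omit [FiniteResidues K F] [HasPrincipalDivisors K F] [Nonempty (Place K F)]
  [FiniteResidues k Ft] [HasPrincipalDivisors k Ft] [Nonempty (Place k Ft)] [Infinite k] in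
theorem liftDiv_mem_degZero (H : LSpaceHyp R g c) (s : Place k Ft → Place K F)
    (E : Divisor.degZero (K := k) (F := Ft)) :
    liftDiv s (E : Divisor k Ft) ∈ Divisor.degZero (K := K) (F := F) := by
  rw [Divisor.mem_degZero, degree_liftDiv H, ← Divisor.mem_degZero]
  exact E.2

/-- a section of `rOf H` exists. -/
theorem exists_section (H : LSpaceHyp R g c) : ∃ s : Place k Ft → Place K F, ∀ Q, rOf H (s Q) = Q :=
  ⟨fun Q => (rOf_surjective H Q).choose, fun Q => (rOf_surjective H Q).choose_spec⟩

/-! ### `KerRed` is a subgroup -/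

/-- `KerRed H` as an additive subgroup of `Pic0 K F`. -/
def kerRedSubgroup (H : LSpaceHyp R g c) : AddSubgroup (Pic0 K F) where
  carrier := KerRed H
  zero_mem' := ⟨0, rfl, by
    rw [show ((0 : Divisor.degZero (K := K) (F := F)) : Divisor K F) = 0 from rfl,
      Finsupp.mapDomain_zero]
    exact isPrincipal_zero⟩
  add_mem' := by
    rintro _ _ ⟨D, rfl, hD⟩ ⟨D', rfl, hD'⟩
    refine ⟨D + D', rfl, ?_⟩
    rw [AddSubgroup.coe_add, Finsupp.mapDomain_add]
    exact Divisor.mem_principal.mp
      (add_mem (Divisor.mem_principal.mpr hD) (Divisor.mem_principal.mpr hD'))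
  neg_mem' := by
    rintro _ ⟨D, rfl, hD⟩
    refine ⟨-D, rfl, ?_⟩
    rw [AddSubgroup.coe_neg, ← Finsupp.mapDomain.addMonoidHom_apply, map_neg,
      Finsupp.mapDomain.addMonoidHom_apply]
    exact Divisor.mem_principal.mp (neg_mem (Divisor.mem_principal.mpr hD))

theorem mem_kerRedSubgroup (H : LSpaceHyp R g c) {ξ : Pic0 K F} :
    ξ ∈ kerRedSubgroup H ↔ ξ ∈ KerRed H := Iff.rfl

/-! ### Shifts -/

/-- **every class differs from a lifted class by an element of the kernel of reduction**. -/
theorem exists_shift (H : LSpaceHyp R g c) {s : Place k Ft → Place K F}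
    (hs : ∀ Q, rOf H (s Q) = Q) (ξ : Pic0 K F) :
    ∃ E : Divisor.degZero (K := k) (F := Ft),
      ξ - Pic0.mk ⟨liftDiv s (E : Divisor k Ft), liftDiv_mem_degZero H s E⟩ ∈ KerRed H := by
  obtain ⟨D, rfl⟩ := Pic0.mk_surjective ξ
  have hE : Finsupp.mapDomain (rOf H) (D : Divisor K F) ∈
      Divisor.degZero (K := k) (F := Ft) := by
    rw [Divisor.mem_degZero, degree_mapDomain H.degF H.degFt, ← Divisor.mem_degZero]
    exact D.2
  refine ⟨⟨_, hE⟩, D - ⟨liftDiv s _, liftDiv_mem_degZero H s ⟨_, hE⟩⟩, rfl, ?_⟩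
  rw [AddSubgroup.coe_sub, Finsupp.mapDomain_sub]
  simp only [mapDomain_rOf_liftDiv H hs, sub_self]
  exact isPrincipal_zero

/-- the set of lifted classes along `s`. -/
def liftClasses (H : LSpaceHyp R g c) (s : Place k Ft → Place K F) : Set (Pic0 K F) :=
  {c | ∃ E : Divisor.degZero (K := k) (F := Ft),
    c = Pic0.mk ⟨liftDiv s (E : Divisor k Ft), liftDiv_mem_degZero H s E⟩}

/-- **finite shift sets**: a finite set of lifted classes covers a finite `M` modulo `KerRed`. -/
theorem exists_shiftSet (H : LSpaceHyp R g c) {s : Place k Ft → Place K F}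
    (hs : ∀ Q, rOf H (s Q) = Q) {M : Set (Pic0 K F)} (hM : M.Finite) :
    ∃ S₀ : Finset (Pic0 K F), (∀ c ∈ S₀, c ∈ liftClasses H s) ∧
      ∀ ξ ∈ M, ∃ c ∈ S₀, ξ - c ∈ KerRed H := by
  classical
  choose E hE using fun ξ : Pic0 K F => exists_shift H hs ξ
  refine ⟨hM.toFinset.image fun ξ =>
    Pic0.mk ⟨liftDiv s (E ξ : Divisor k Ft), liftDiv_mem_degZero H s (E ξ)⟩, ?_, ?_⟩
  · intro c hc
    obtain ⟨ξ, -, rfl⟩ := Finset.mem_image.mp hc
    exact ⟨E ξ, rfl⟩
  · intro ξ hξ
    exact ⟨_, Finset.mem_image.mpr ⟨ξ, hM.mem_toFinset.mpr hξ, rfl⟩, hE ξ⟩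

/-- two classes with the same shift differ by an element of `KerRed`. -/
theorem sub_mem_kerRed_of_shift (H : LSpaceHyp R g c) {ξ η c : Pic0 K F}
    (hξ : ξ - c ∈ KerRed H) (hη : η - c ∈ KerRed H) : ξ - η ∈ KerRed H := by
  have := (kerRedSubgroup H).sub_mem hξ hη
  rwa [sub_sub_sub_cancel_right] at this

end Fermat.Agent.GH.L3
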