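/-
GATE-H / node L (iii) → GAL adapter (helper87): FIXED SHIFTS.

If a set `T` of semilinear automorphisms of `F / K` (inertia, in the application) fixes one place
in every residue disc, then every class of `Pic0 K F` has a `T`-fixed shift modulo `KerRed H`
(= the field `exists_fixed_shift` of `GH/CoreAsm/GalFrame.lean`, in `SemilinearAut` spelling).
-/
import Mathlib
import Fermat.Agent.GH.L3.Shift
import Fermat.Prelude.Def_AlgebraicCurve_BaseChangeGalois

set_option autoImplicit false

noncomputable section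

open AlgebraicCurve

namespace Fermat.Agent.GH.L3

open Fermat.Agent.RRh45 Fermat.Agent.GJ.S37MinDiv Fermat.Agent.GJ.J1 Fermat.Agent.GJ.S37LSpace
  Fermat.Agent.GJ.S37ROfSurj Fermat.Agent.GH

variable {K F k Ft : Type*} [Field K] [Field F] [Algebra K F] [Field k] [Field Ft] [Algebra k Ft]

/-- a semilinear automorphism fixing the values of `s` fixes every lifted divisor. -/
theorem smul_liftDiv_eq (τ : SemilinearAut K F) (s : Place k Ft → Place K F)
    (hτ : ∀ Q, τ • s Q = s Q) (E : Divisor k Ft) : τ • liftDiv s E = liftDiv s E := by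
  rw [SemilinearAut.divisor_smul_def, liftDiv, ← Finsupp.mapDomain_comp]
  congr 1
  exact funext hτ

variable {R : RedData K F k Ft} {g c : ℤ}
variable [FiniteResidues K F] [HasPrincipalDivisors K F] [Nonempty (Place K F)]
variable [FiniteResidues k Ft] [HasPrincipalDivisors k Ft] [Nonempty (Place k Ft)]
variable [Infinite k]

omit [FiniteResidues K F] [HasPrincipalDivisors K F] [Nonempty (Place K F)]
  [FiniteResidues k Ft] [HasPrincipalDivisors k Ft] [Nonempty (Place k Ft)] [Infinite k] in
/-- … and every lifted class. -/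
theorem smul_liftClass_eq (H : LSpaceHyp R g c) (τ : SemilinearAut K F)
    (s : Place k Ft → Place K F) (hτ : ∀ Q, τ • s Q = s Q)
    (E : Divisor.degZero (K := k) (F := Ft)) :
    τ • Pic0.mk ⟨liftDiv s (E : Divisor k Ft), liftDiv_mem_degZero H s E⟩ =
      Pic0.mk ⟨liftDiv s (E : Divisor k Ft), liftDiv_mem_degZero H s E⟩ := by
  rw [SemilinearAut.pic0_smul_mk]
  congr 1
  apply Subtype.ext
  rw [SemilinearAut.coe_degZeroSMulHom]
  exact smul_liftDiv_eq τ s hτ _

/-- **fixed shifts from a fixed section**. -/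
theorem exists_fixed_shift_of_section (H : LSpaceHyp R g c) {s : Place k Ft → Place K F}
    (hs : ∀ Q, rOf H (s Q) = Q) (T : Set (SemilinearAut K F))
    (hT : ∀ τ ∈ T, ∀ Q, τ • s Q = s Q) (ξ : Pic0 K F) :
    ∃ sh : Pic0 K F, (∀ τ ∈ T, τ • sh = sh) ∧ ξ - sh ∈ KerRed H := by
  obtain ⟨E, hE⟩ := exists_shift H hs ξ
  exact ⟨_, fun τ hτ => smul_liftClass_eq H τ s (hT τ hτ) E, hE⟩

/-- **fixed shifts from one fixed place in every disc**. -/
theorem exists_fixed_shift_of_fixed_places (H : LSpaceHyp R g c) (T : Set (SemilinearAut K F))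
    (hfix : ∀ Q : Place k Ft, ∃ P ∈ disc H Q, ∀ τ ∈ T, τ • P = P) (ξ : Pic0 K F) :
    ∃ sh : Pic0 K F, (∀ τ ∈ T, τ • sh = sh) ∧ ξ - sh ∈ KerRed H := by
  choose s hs hsT using hfix
  exact exists_fixed_shift_of_section H (fun Q => hs Q) T (fun τ hτ Q => hsT Q τ hτ) ξ

end Fermat.Agent.GH.L3
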